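import Mathlib

set_option autoImplicit false

namespace Fermat.Agent.Lib.S22Alt

section abstract

variable {V : Type*} [AddCommGroup V] [Module ℂ V]

/-- The `ℤ`-span of a family of functionals is finitely generated as soon as all of them are
combinations, with coefficients in a fixed f.g. `ℤ`-submodule of `ℂ`, of finitely many
fixed functions. -/
theorem span_functionals_fg {J : Type*} [Finite J] (A : ℕ → Module.Dual ℂ V)
    (lam : J → V → ℂ) (O : Submodule ℤ ℂ) (hO : O.FG)
    (h : ∀ n, ∃ c : J → ℂ, (∀ j, c j ∈ O) ∧ ∀ v, A n v = ∑ᶠ j, c j * lam j v) :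
    (Submodule.span ℤ (Set.range A)).FG := by
  classical
  have := Fintype.ofFinite J
  -- the coercion to functions
  let coe : Module.Dual ℂ V →ₗ[ℤ] (V → ℂ) :=
    { toFun := fun φ => φ
      map_add' := fun _ _ => rfl
      map_smul' := fun _ _ => rfl }
  have hcoe : Function.Injective coe := fun φ ψ hφψ => LinearMap.ext fun v => congrFun hφψ v
  -- the big f.g. module
  let Φ : (J → ℂ) →ₗ[ℤ] (V → ℂ) :=
    { toFun := fun c v => ∑ j, c j * lam j v
      map_add' := fun c c' => by
        funext v
        simp [add_mul, Finset.sum_add_distrib]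
      map_smul' := fun z c => by
        funext v
        simp [Finset.mul_sum, mul_assoc] }
  let M' : Submodule ℤ (V → ℂ) := (Submodule.pi Set.univ fun _ : J => O).map Φ
  have hM' : M'.FG := (Submodule.fg_pi fun _ => hO).map Φ
  have : IsNoetherian ℤ M' := isNoetherian_of_fg_of_noetherian M' hM'
  apply Submodule.fg_of_fg_map_injective coe hcoe
  have hle : (Submodule.span ℤ (Set.range A)).map coe ≤ M' := by
    rw [Submodule.map_span_le]
    rintro _ ⟨n, rfl⟩
    obtain ⟨c, hc, hcv⟩ := h n
    refine ⟨c, fun j _ => hc j, ?_⟩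
    funext v
    rw [show coe (A n) v = A n v from rfl, hcv v, finsum_eq_sum_of_fintype]
    rfl
  exact (isNoetherian_submodule.mp ‹IsNoetherian ℤ M'›) _ hle

/-- Abstract finiteness criterion for a `ℤ`-algebra of operators. -/
theorem finite_of_functionals (gens : Set (Module.End ℂ V)) (A : ℕ → Module.Dual ℂ V)
    (hsep : ∀ v, (∀ n, A n v = 0) → v = 0)
    (hstab : ∀ t ∈ gens, ∀ n, (A n) ∘ₗ t ∈ Submodule.span ℤ (Set.range A))
    (hfg : (Submodule.span ℤ (Set.range A)).FG) :
    Module.Finite ℤ (Algebra.adjoin ℤ gens) := by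
  classical
  set M : Submodule ℤ (Module.Dual ℂ V) := Submodule.span ℤ (Set.range A) with hM
  -- stability of `M` under all of the algebra
  have hstab' : ∀ t ∈ Algebra.adjoin ℤ gens, ∀ φ ∈ M, φ ∘ₗ t ∈ M := by
    intro t ht
    induction ht using Algebra.adjoin_induction with
    | mem t ht =>
      intro φ hφ
      induction hφ using Submodule.span_induction with
      | mem φ hφ =>
        obtain ⟨n, rfl⟩ := hφ
        exact hstab t ht n
      | zero => simp
      | add φ ψ _ _ h1 h2 =>
        rw [LinearMap.add_comp]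
        exact M.add_mem h1 h2
      | smul z φ _ h1 =>
        have : (z • φ) ∘ₗ t = z • (φ ∘ₗ t) := by
          ext v; simp
        rw [this]
        exact M.smul_mem z h1
    | algebraMap z =>
      intro φ hφ
      have : φ ∘ₗ (algebraMap ℤ (Module.End ℂ V) z) = z • φ := by
        ext v
        simp
      rw [this]
      exact M.smul_mem z hφ
    | add t s _ _ h1 h2 =>
      intro φ hφ
      rw [LinearMap.comp_add]
      exact M.add_mem (h1 φ hφ) (h2 φ hφ)
    | mul t s _ _ h1 h2 =>
      intro φ hφ
      have : φ ∘ₗ (t * s) = (φ ∘ₗ t) ∘ₗ s := by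
        ext v; simp
      rw [this]
      exact h2 _ (h1 φ hφ)
  have : IsNoetherian ℤ M := isNoetherian_of_fg_of_noetherian M hfg
  obtain ⟨s, hs⟩ := hfg
  -- the evaluation map
  let Ψ : (Algebra.adjoin ℤ gens) →ₗ[ℤ] (s → M) :=
    { toFun := fun t i => ⟨(i : Module.Dual ℂ V) ∘ₗ (t : Module.End ℂ V),
        hstab' t t.2 i (hs ▸ Submodule.subset_span i.2)⟩
      map_add' := fun t t' => by
        funext i
        apply Subtype.ext
        simp [LinearMap.comp_add]
      map_smul' := fun z t => by
        funext i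
        apply Subtype.ext
        ext v
        simp }
  refine Module.Finite.of_injective Ψ ?_
  rw [← LinearMap.ker_eq_bot, LinearMap.ker_eq_bot']
  intro t ht
  have h0 : ∀ i : s, (i : Module.Dual ℂ V) ∘ₗ (t : Module.End ℂ V) = 0 := fun i =>
    congrArg Subtype.val (congrFun ht i)
  have h1 : ∀ φ ∈ M, φ ∘ₗ (t : Module.End ℂ V) = 0 := by
    intro φ hφ
    rw [← hs] at hφ
    induction hφ using Submodule.span_induction with
    | mem φ hφ => exact h0 ⟨φ, hφ⟩
    | zero => simp
    | add φ ψ _ _ h1 h2 => rw [LinearMap.add_comp, h1, h2, add_zero]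
    | smul z φ _ h1 =>
      have : (z • φ) ∘ₗ (t : Module.End ℂ V) = z • (φ ∘ₗ (t : Module.End ℂ V)) := by
        ext v; simp
      rw [this, h1, smul_zero]
  apply Subtype.ext
  apply LinearMap.ext
  intro v
  apply hsep
  intro n
  have := h1 (A n) (Submodule.subset_span ⟨n, rfl⟩)
  exact LinearMap.congr_fun this v

end abstract

end Fermat.Agent.Lib.S22Alt
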