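import Mathlib

set_option autoImplicit false

open scoped MatrixGroups

namespace Fermat.Agent.Lib.S22Alt

theorem decomp (N : ℕ) (hN : 0 < N) (γ : SL(2, ℤ)) :
    ∃ (δ : SL(2, ℤ)) (a d : ℕ) (b : ℤ), a * d = N ∧
      (N : ℤ) * γ 0 0 = δ 0 0 * a ∧ (N : ℤ) * γ 0 1 = δ 0 0 * b + δ 0 1 * d ∧
      γ 1 0 = δ 1 0 * a ∧ γ 1 1 = δ 1 0 * b + δ 1 1 * d ∧
      (a = N ↔ γ ∈ CongruenceSubgroup.Gamma0 N) := by
  set α := γ 0 0 with hα
  set β := γ 0 1 with hβ
  set c := γ 1 0 with hc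
  set e := γ 1 1 with he
  have hdet : α * e - β * c = 1 := by
    have := γ.det_coe
    rw [Matrix.det_fin_two] at this
    exact this
  set a : ℕ := Int.gcd (N : ℤ) c with ha
  have ha_pos : 0 < a := Int.gcd_pos_of_ne_zero_left _ (by exact_mod_cast hN.ne')
  have haN : (a : ℤ) ∣ (N : ℤ) := Int.gcd_dvd_left _ _
  have hac : (a : ℤ) ∣ c := Int.gcd_dvd_right _ _
  obtain ⟨d', hd'⟩ := haN
  obtain ⟨v, hv⟩ := hac
  have hd'pos : 0 < d' := by
    have h1 : (0 : ℤ) < a * d' := by rw [← hd']; exact_mod_cast hN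
    exact (pos_iff_pos_of_mul_pos h1).mp (by exact_mod_cast ha_pos)
  lift d' to ℕ using hd'pos.le with d hd
  have hcop1 : IsCoprime (d : ℤ) v := by
    have h := Int.isCoprime_iff_gcd_eq_one.mpr
      (Int.gcd_div_gcd_div_gcd (i := (N : ℤ)) (j := c) ha_pos)
    have e1 : (N : ℤ) / (Int.gcd (N : ℤ) c : ℤ) = d := by
      rw [← ha, hd']
      exact Int.mul_ediv_cancel_left _ (by exact_mod_cast ha_pos.ne')
    have e2 : c / (Int.gcd (N : ℤ) c : ℤ) = v := by
      rw [← ha, hv]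
      exact Int.mul_ediv_cancel_left _ (by exact_mod_cast ha_pos.ne')
    rwa [e1, e2] at h
  have hcop2 : IsCoprime α v := by
    refine ⟨e, -β * a, ?_⟩
    rw [hv] at hdet
    linear_combination hdet
  have hcop : IsCoprime ((d : ℤ) * α) v := hcop1.mul_left hcop2
  obtain ⟨δ, hδ0, hδ1⟩ := hcop.exists_SL2_col 0
  have hδdet : δ 0 0 * δ 1 1 - δ 0 1 * δ 1 0 = 1 := by
    have := δ.det_coe
    rw [Matrix.det_fin_two] at this
    exact this
  refine ⟨δ, a, d, δ 1 1 * (N * β) - δ 0 1 * e, by exact_mod_cast hd'.symm, ?_, ?_, ?_, ?_, ?_⟩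
  · rw [hδ0, hd']; ring
  · rw [hδ0] at hδdet ⊢
    rw [hδ1] at hδdet
    rw [hv] at hdet
    rw [hd']
    linear_combination (-(a : ℤ) * d * β) * hδdet + (δ 0 1 * d) * hdet
  · rw [hδ1, hv]; ring
  · rw [hδ0, hδ1] at hδdet
    rw [hδ1]
    rw [hv] at hdet
    rw [hd']
    linear_combination (-e) * hδdet + (δ 1 1 * d) * hdet
  · rw [CongruenceSubgroup.Gamma0_mem, ZMod.intCast_zmod_eq_zero_iff_dvd]
    constructor
    · intro h
      rw [← h]
      exact Int.gcd_dvd_right _ _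
    · intro h
      rw [ha]
      have := Int.gcd_eq_left (a := (N : ℤ)) (b := c) (by positivity) h
      exact_mod_cast this

end Fermat.Agent.Lib.S22Alt
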