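import Mathlib

set_option autoImplicit false

open UpperHalfPlane

namespace Fermat.Agent.Lib.S22Alt

/-- Functions on the upper half plane whose cusp function (for the period `h`) is analytic
at `0`. -/
def anSub (h : ℝ) : Subalgebra ℂ (ℍ → ℂ) where
  carrier := {F | AnalyticAt ℂ (cuspFunction h F) 0}
  mul_mem' := by
    intro F G hF hG
    simp only [Set.mem_ofPred_eq] at hF hG ⊢
    rw [cuspFunction_mul hF.continuousAt hG.continuousAt]
    exact hF.mul hG
  add_mem' := by
    intro F G hF hG
    simp only [Set.mem_ofPred_eq] at hF hG ⊢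
    rw [cuspFunction_add hF.continuousAt hG.continuousAt]
    exact hF.add hG
  algebraMap_mem' := by
    intro c
    simp only [Set.mem_ofPred_eq]
    have h1 : cuspFunction h (1 : ℍ → ℂ) = 1 := by
      ext q
      rcases eq_or_ne q 0 with rfl | hq
      · simpa [cuspFunction, Function.Periodic.cuspFunction] using! tendsto_const_nhds.limUnder_eq
      · simp [cuspFunction, Function.Periodic.cuspFunction_eq_of_nonzero h _ hq]
    have h1' : AnalyticAt ℂ (cuspFunction h (1 : ℍ → ℂ)) 0 := by
      rw [h1]; exact analyticAt_const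
    have h2 : algebraMap ℂ (ℍ → ℂ) c = c • (1 : ℍ → ℂ) := by
      funext τ; simp
    rw [h2, cuspFunction_smul h1'.continuousAt]
    exact h1'.const_smul

theorem mem_anSub {h : ℝ} {F : ℍ → ℂ} : F ∈ anSub h ↔ AnalyticAt ℂ (cuspFunction h F) 0 :=
  Iff.rfl

/-- The `q`-expansion as an algebra homomorphism. -/
noncomputable def qHom (h : ℝ) : anSub h →ₐ[ℂ] PowerSeries ℂ where
  toFun F := qExpansion h (F : ℍ → ℂ)
  map_one' := qExpansion_one h
  map_mul' F G := qExpansion_mul F.2 G.2
  map_zero' := qExpansion_zero h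
  map_add' F G := qExpansion_add F.2 G.2
  commutes' c := by
    have h2 : ((algebraMap ℂ (anSub h) c : anSub h) : ℍ → ℂ) = c • (1 : ℍ → ℂ) := by
      funext τ; simp
    have h1' : AnalyticAt ℂ (cuspFunction h (1 : ℍ → ℂ)) 0 := (1 : anSub h).2
    show qExpansion h ((algebraMap ℂ (anSub h) c : anSub h) : ℍ → ℂ) = _
    rw [h2, qExpansion_smul h1', qExpansion_one]
    ext n
    simp [PowerSeries.coeff_C, PowerSeries.coeff_one]

@[simp] theorem qHom_apply {h : ℝ} (F : anSub h) : qHom h F = qExpansion h (F : ℍ → ℂ) := rfl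

theorem qParam_add_period {h : ℝ} (hh : h ≠ 0) (z : ℂ) :
    Function.Periodic.qParam h (z + h) = Function.Periodic.qParam h z := by
  have hh' : (h : ℂ) ≠ 0 := by exact_mod_cast hh
  simp only [Function.Periodic.qParam]
  rw [show 2 * (Real.pi : ℂ) * Complex.I * (z + h) / h
    = 2 * (Real.pi : ℂ) * Complex.I * z / h + 2 * (Real.pi : ℂ) * Complex.I by field_simp,
    Complex.exp_add, Complex.exp_two_pi_mul_I, mul_one]

/-- A holomorphic function given by a convergent `q`-series is analytic at the cusp, with the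
expected `q`-expansion. -/
theorem mem_anSub_of_hasSum {h : ℝ} (hh : 0 < h) {F : ℍ → ℂ} (hol : MDifferentiable (modelWithCornersSelf ℂ ℂ) (modelWithCornersSelf ℂ ℂ) F) {c : ℕ → ℂ}
    (hs : ∀ τ : ℍ, HasSum (fun m => c m • Function.Periodic.qParam h τ ^ m) (F τ)) :
    F ∈ anSub h ∧ ∀ m, (qExpansion h F).coeff m = c m := by
  have hper : Function.Periodic (F ∘ ofComplex) h := by
    intro z
    by_cases hz : 0 < z.im
    · have hz' : 0 < (z + h).im := by simpa using hz
      simp only [Function.comp_apply]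
      rw [ofComplex_apply_of_im_pos hz, ofComplex_apply_of_im_pos hz']
      have h1 : HasSum (fun m => c m • Function.Periodic.qParam h z ^ m) (F ⟨z, hz⟩) := hs ⟨z, hz⟩
      have h2 : HasSum (fun m => c m • Function.Periodic.qParam h (z + h) ^ m) (F ⟨z + h, hz'⟩) :=
        hs ⟨z + h, hz'⟩
      rw [qParam_add_period hh.ne'] at h2
      exact h2.unique h1
    · have hz' : (z + h).im ≤ 0 := by simpa using not_lt.mp hz
      simp only [Function.comp_apply]
      rw [ofComplex_apply_of_im_nonpos (not_lt.mp hz), ofComplex_apply_of_im_nonpos hz']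
  have hbd := isBoundedAtImInfty_of_hasSum_qExpansion hh hs
  have han : AnalyticAt ℂ (cuspFunction h F) 0 := analyticAt_cuspFunction_zero hh hper hol hbd
  refine ⟨han, fun m => ?_⟩
  let _ : FunLike (ℍ → ℂ) ℍ ℂ := { coe := fun f => f, coe_injective := fun _ _ h => h }
  exact (qExpansion_coeff_unique (F := ℍ → ℂ) F hh han hs m).symm

end Fermat.Agent.Lib.S22Alt
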