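import Mathlib
import Fermat.Agent.Lib.S22Alt.QRing

set_option autoImplicit false

open UpperHalfPlane ModularForm EisensteinSeries
open scoped MatrixGroups

namespace Fermat.Agent.Lib.S22Alt

/-- `∑ σ_j(n) q^n` as an integral power series (no constant term). -/
def sigmaSeries (j : ℕ) : PowerSeries ℤ :=
  PowerSeries.mk fun n => if n = 0 then 0 else (ArithmeticFunction.sigma j n : ℤ)

theorem modularForm_mem_anSub {w : ℤ} (F : ModularForm 𝒮ℒ w) : (F : ℍ → ℂ) ∈ anSub 1 :=
  ModularFormClass.analyticAt_cuspFunction_zero F one_pos one_mem_strictPeriods_SL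

theorem qExpansion_E (k : ℕ) (hk : 3 ≤ k) (hk2 : Even k) :
    qExpansion 1 (E hk) = 1 + (-(2 * k / bernoulli k) : ℂ) •
      (sigmaSeries (k - 1)).map (Int.castRingHom ℂ) := by
  ext m
  rw [E_qExpansion_coeff hk hk2]
  by_cases hm : m = 0
  · subst hm
    simp [sigmaSeries, -PowerSeries.coeff_zero_eq_constantCoeff]
  · simp [hm, sigmaSeries, PowerSeries.coeff_one]

theorem twelve_dvd_aux (d : ℤ) : (12 : ℤ) ∣ 5 * d ^ 3 + 7 * d ^ 5 := by
  have h : ∀ x : ZMod 12, 5 * x ^ 3 + 7 * x ^ 5 = 0 := by decide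
  have := h (d : ZMod 12)
  have h2 := (ZMod.intCast_zmod_eq_zero_iff_dvd (5 * d ^ 3 + 7 * d ^ 5) 12).mp (by
    push_cast
    exact this)
  exact_mod_cast h2

theorem twelve_dvd_sigma (n : ℕ) :
    (12 : ℤ) ∣ 5 * (ArithmeticFunction.sigma 3 n : ℤ) + 7 * (ArithmeticFunction.sigma 5 n : ℤ) := by
  rw [ArithmeticFunction.sigma_apply, ArithmeticFunction.sigma_apply]
  push_cast
  rw [Finset.mul_sum, Finset.mul_sum, ← Finset.sum_add_distrib]
  exact Finset.dvd_sum fun d _ => twelve_dvd_aux d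

/-- The integral power series with `12 * C = 5 σ₃ + 7 σ₅`. -/
def deltaAux : PowerSeries ℤ :=
  PowerSeries.mk fun n => if n = 0 then 0 else
    (5 * (ArithmeticFunction.sigma 3 n : ℤ) + 7 * (ArithmeticFunction.sigma 5 n : ℤ)) / 12

theorem twelve_mul_deltaAux :
    (12 : PowerSeries ℤ) * deltaAux = 5 * sigmaSeries 3 + 7 * sigmaSeries 5 := by
  ext n
  rw [← map_ofNat (PowerSeries.C (R := ℤ)) 12, ← map_ofNat (PowerSeries.C (R := ℤ)) 5,
    ← map_ofNat (PowerSeries.C (R := ℤ)) 7, map_add, PowerSeries.coeff_C_mul,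
    PowerSeries.coeff_C_mul, PowerSeries.coeff_C_mul]
  by_cases hn : n = 0
  · simp [hn, deltaAux, sigmaSeries]
  · simp only [deltaAux, sigmaSeries, PowerSeries.coeff_mk, hn, if_false]
    exact Int.mul_ediv_cancel' (twelve_dvd_sigma n)

/-- The integral `q`-expansion of the discriminant. -/
noncomputable def deltaInt : PowerSeries ℤ :=
  deltaAux + 100 * sigmaSeries 3 ^ 2 + 8000 * sigmaSeries 3 ^ 3 - 147 * sigmaSeries 5 ^ 2

theorem deltaInt_spec :
    (1728 : PowerSeries ℤ) * deltaInt =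
      (1 + 240 * sigmaSeries 3) ^ 3 - (1 - 504 * sigmaSeries 5) ^ 2 := by
  have h := twelve_mul_deltaAux
  rw [deltaInt]
  linear_combination 144 * h

theorem qExpansion_discriminant :
    qExpansion 1 ModularForm.discriminant = deltaInt.map (Int.castRingHom ℂ) := by
  have hE4 : qExpansion 1 E₄ = 1 + 240 * (sigmaSeries 3).map (Int.castRingHom ℂ) := by
    rw [qExpansion_E 4 (by norm_num) ⟨2, rfl⟩, show bernoulli 4 = -1 / 30 by decide +kernel]
    ext n
    simp only [map_add, PowerSeries.coeff_smul, smul_eq_mul]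
    rw [← map_ofNat (PowerSeries.C (R := ℂ)) 240, PowerSeries.coeff_C_mul]
    norm_num
  have hE6 : qExpansion 1 E₆ = 1 - 504 * (sigmaSeries 5).map (Int.castRingHom ℂ) := by
    rw [qExpansion_E 6 (by norm_num) ⟨3, rfl⟩, show bernoulli 6 = 1 / 42 by decide +kernel]
    ext n
    simp only [map_add, map_sub, PowerSeries.coeff_smul, smul_eq_mul]
    rw [← map_ofNat (PowerSeries.C (R := ℂ)) 504, PowerSeries.coeff_C_mul]
    norm_num
    ring
  let e4 : anSub 1 := ⟨E₄, modularForm_mem_anSub E₄⟩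
  let e6 : anSub 1 := ⟨E₆, modularForm_mem_anSub E₆⟩
  have hfun : ModularForm.discriminant = (((1 / 1728 : ℂ) • (e4 ^ 3 - e6 ^ 2) : anSub 1) : ℍ → ℂ) := by
    funext z
    rw [discriminant_eq_E₄_cube_sub_E₆_sq z]
    simp [e4, e6]
    ring
  have h1 : qExpansion 1 ModularForm.discriminant
      = (1 / 1728 : ℂ) • ((qExpansion 1 E₄) ^ 3 - (qExpansion 1 E₆) ^ 2) := by
    rw [hfun, ← qHom_apply, map_smul, map_sub, map_pow, map_pow]
    rfl
  have h2 := congrArg (PowerSeries.map (Int.castRingHom ℂ)) deltaInt_spec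
  simp only [map_mul, map_sub, map_pow, map_add, map_one, map_ofNat] at h2
  rw [h1, hE4, hE6, ← h2]
  ext n
  rw [PowerSeries.coeff_smul, ← map_ofNat (PowerSeries.C (R := ℂ)) 1728, PowerSeries.coeff_C_mul]
  simp

theorem coeff_zero_deltaInt : deltaInt.coeff 0 = 0 := by
  have h : (qExpansion 1 ModularForm.discriminant).coeff 0 = 0 :=
    CuspFormClass.qExpansion_coeff_zero CuspForm.discriminant one_pos
      one_mem_strictPeriods_SL
  rw [qExpansion_discriminant, PowerSeries.coeff_map] at h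
  simpa using h

theorem coeff_one_deltaInt : deltaInt.coeff 1 = 1 := by
  have h := discriminant_qExpansion_coeff_one
  rw [qExpansion_discriminant, PowerSeries.coeff_map] at h
  simpa using h

end Fermat.Agent.Lib.S22Alt
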