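import Mathlib
import Fermat.Prelude.Def_ModularForm_HeckeOperator
import Fermat.Agent.Lib.S22Alt.Decomp
import Fermat.Agent.Lib.S22Alt.DeltaInt

set_option autoImplicit false

open UpperHalfPlane ModularForm
open scoped MatrixGroups ModularForm Pointwise

namespace Fermat.Agent.Lib.S22Alt

/-- `Γ₀(N)` inside `GL₂(ℝ)`. -/
abbrev G0 (N : ℕ) : Subgroup (GL (Fin 2) ℝ) :=
  Subgroup.map (Matrix.SpecialLinearGroup.mapGL ℝ) (CongruenceSubgroup.Gamma0 N)

theorem det_upperTriangularGL (a b d : ℝ) (had : a * d ≠ 0) :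
    ((upperTriangularGL a b d had).det : ℝ) = a * d := by
  rw [Matrix.GeneralLinearGroup.val_det_apply, val_upperTriangularGL, Matrix.det_fin_two_of]
  ring

theorem coe_upperTriangularGL_smul (a b d : ℝ) (had : 0 < a * d) (τ : ℍ) :
    ((upperTriangularGL a b d had.ne' • τ : ℍ) : ℂ) = ((a : ℂ) * τ + b) / d := by
  rw [UpperHalfPlane.coe_smul_of_det_pos (by rw [det_upperTriangularGL]; exact had)]
  simp [UpperHalfPlane.num, UpperHalfPlane.denom, val_upperTriangularGL]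

theorem slash_upperTriangularGL_apply (k : ℤ) (a b d : ℝ) (had : 0 < a * d) (f : ℍ → ℂ) (τ : ℍ) :
    (f ∣[k] upperTriangularGL a b d had.ne') τ =
      f (upperTriangularGL a b d had.ne' • τ) * ((a * d : ℝ) : ℂ) ^ (k - 1) * (d : ℂ) ^ (-k) := by
  have hσ : UpperHalfPlane.σ (upperTriangularGL a b d had.ne') = .refl ℝ ℂ := by
    rw [UpperHalfPlane.σ, if_pos (by rw [det_upperTriangularGL]; exact had)]
  rw [ModularForm.slash_apply, hσ, det_upperTriangularGL, abs_of_pos had]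
  simp [UpperHalfPlane.denom, val_upperTriangularGL]

theorem gl_decomp (N : ℕ) (hN : 0 < N) (γ δ : SL(2, ℤ)) (a d : ℕ) (b : ℤ)
    (h00 : (N : ℤ) * γ 0 0 = δ 0 0 * a) (h01 : (N : ℤ) * γ 0 1 = δ 0 0 * b + δ 0 1 * d)
    (h10 : γ 1 0 = δ 1 0 * a) (h11 : γ 1 1 = δ 1 0 * b + δ 1 1 * d)
    (had' : (a : ℝ) * (d : ℝ) ≠ 0) :
    heckeDiagMatrix N * Matrix.SpecialLinearGroup.mapGL ℝ γ =
      Matrix.SpecialLinearGroup.mapGL ℝ δ * upperTriangularGL a b d had' := by
  apply Matrix.GeneralLinearGroup.ext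
  intro i j
  have e00 : (N : ℝ) * (γ 0 0 : ℝ) = (δ 0 0 : ℝ) * a := by exact_mod_cast h00
  have e01 : (N : ℝ) * (γ 0 1 : ℝ) = (δ 0 0 : ℝ) * b + (δ 0 1 : ℝ) * d := by exact_mod_cast h01
  have e10 : (γ 1 0 : ℝ) = (δ 1 0 : ℝ) * a := by exact_mod_cast h10
  have e11 : (γ 1 1 : ℝ) = (δ 1 0 : ℝ) * b + (δ 1 1 : ℝ) * d := by exact_mod_cast h11
  fin_cases i <;> fin_cases j <;>
    simp [Matrix.mul_apply, Fin.sum_univ_two, val_heckeDiagMatrix hN.ne', val_upperTriangularGL,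
      Matrix.SpecialLinearGroup.mapGL_coe_matrix, Matrix.SpecialLinearGroup.map_apply_coe] <;>
    assumption

theorem exists_conj (N : ℕ) (hN : 0 < N) (γ : SL(2, ℤ)) (hγ : γ ∈ CongruenceSubgroup.Gamma0 N) :
    ∃ γ' : SL(2, ℤ), heckeDiagMatrix N * Matrix.SpecialLinearGroup.mapGL ℝ γ =
      Matrix.SpecialLinearGroup.mapGL ℝ γ' * heckeDiagMatrix N := by
  rw [CongruenceSubgroup.Gamma0_mem, ZMod.intCast_zmod_eq_zero_iff_dvd] at hγ
  obtain ⟨c', hc'⟩ := hγ
  have hdet : γ 0 0 * γ 1 1 - γ 0 1 * γ 1 0 = 1 := by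
    have := γ.det_coe
    rw [Matrix.det_fin_two] at this
    exact this
  have hdet' : (!![γ 0 0, N * γ 0 1; c', γ 1 1] : Matrix (Fin 2) (Fin 2) ℤ).det = 1 := by
    rw [Matrix.det_fin_two_of]
    rw [hc'] at hdet
    linear_combination hdet
  obtain ⟨γ', h00, h01, h10, h11⟩ : ∃ γ' : SL(2, ℤ), γ' 0 0 = γ 0 0 ∧ γ' 0 1 = N * γ 0 1 ∧
      γ' 1 0 = c' ∧ γ' 1 1 = γ 1 1 := ⟨⟨_, hdet'⟩, by simp, by simp, by simp, by simp⟩
  refine ⟨γ', ?_⟩
  apply Matrix.GeneralLinearGroup.ext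
  intro i j
  have e10 : (γ 1 0 : ℝ) = (N : ℝ) * c' := by exact_mod_cast hc'
  have f00 : (γ' 0 0 : ℝ) = γ 0 0 := by exact_mod_cast h00
  have f01 : (γ' 0 1 : ℝ) = N * γ 0 1 := by exact_mod_cast h01
  have f10 : (γ' 1 0 : ℝ) = c' := by exact_mod_cast h10
  have f11 : (γ' 1 1 : ℝ) = γ 1 1 := by exact_mod_cast h11
  fin_cases i <;> fin_cases j <;>
    simp [Matrix.mul_apply, Fin.sum_univ_two, val_heckeDiagMatrix hN.ne',
      Matrix.SpecialLinearGroup.mapGL_coe_matrix, Matrix.SpecialLinearGroup.map_apply_coe,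
      e10, f00, f01, f10, f11, mul_comm]

theorem G0_le_conj (N : ℕ) (hN : 0 < N) :
    G0 N ≤ ConjAct.toConjAct (heckeDiagMatrix N)⁻¹ • 𝒮ℒ := by
  rintro _ ⟨γ, hγ, rfl⟩
  obtain ⟨γ', hγ'⟩ := exists_conj N hN γ hγ
  rw [Subgroup.mem_pointwise_smul_iff_inv_smul_mem, ConjAct.smul_def]
  refine ⟨γ', ?_⟩
  simp only [map_inv, inv_inv, ConjAct.ofConjAct_toConjAct]
  rw [hγ']
  group

/-- The form `N¹¹ Δ(Nz)` on `Γ₀(N)`. -/
noncomputable def h0 (N : ℕ) [NeZero N] : ModularForm (G0 N) 12 where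
  toFun := ModularForm.translate CuspForm.discriminant (heckeDiagMatrix N)
  slash_action_eq' g hg := (ModularForm.translate CuspForm.discriminant
    (heckeDiagMatrix N)).slash_action_eq' g (G0_le_conj N (NeZero.pos N) hg)
  holo' := (ModularForm.translate CuspForm.discriminant (heckeDiagMatrix N)).holo'
  bdd_at_cusps' hc := (ModularForm.translate CuspForm.discriminant
    (heckeDiagMatrix N)).bdd_at_cusps' (hc.mono (G0_le_conj N (NeZero.pos N)))

theorem coe_h0 (N : ℕ) [NeZero N] :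
    (h0 N : ℍ → ℂ) = ModularForm.discriminant ∣[(12 : ℤ)] heckeDiagMatrix N := rfl

theorem h0_slash (N : ℕ) [NeZero N] (γ : SL(2, ℤ)) :
    ∃ (a d : ℕ) (b : ℤ) (had : 0 < (a : ℝ) * (d : ℝ)), a * d = N ∧
      (a = N ↔ γ ∈ CongruenceSubgroup.Gamma0 N) ∧
      (h0 N : ℍ → ℂ) ∣[(12 : ℤ)] Matrix.SpecialLinearGroup.mapGL ℝ γ =
        ModularForm.discriminant ∣[(12 : ℤ)] upperTriangularGL a b d had.ne' := by
  obtain ⟨δ, a, d, b, had, h00, h01, h10, h11, hiff⟩ := decomp N (NeZero.pos N) γ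
  have had' : 0 < (a : ℝ) * (d : ℝ) := by
    have : 0 < a * d := had ▸ NeZero.pos N
    exact_mod_cast this
  refine ⟨a, d, b, had', had, hiff, ?_⟩
  rw [coe_h0, ← SlashAction.slash_mul, gl_decomp N (NeZero.pos N) γ δ a d b h00 h01 h10 h11 had'.ne',
    SlashAction.slash_mul]
  congr 1
  exact CuspForm.discriminant.slash_action_eq' _ ⟨δ, rfl⟩

/-- the coefficients of `Δ((a z + b) / d)` in terms of `exp (2 π i z / N)`, `N = a d`. -/
noncomputable def conjSeries (a : ℕ) (ζ : ℂ) : PowerSeries ℂ :=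
  PowerSeries.mk fun m => if a ^ 2 ∣ m then (deltaInt.coeff (m / a ^ 2) : ℂ) * ζ ^ (m / a ^ 2) else 0

theorem qParam_upperTriangular (N a d : ℕ) (b : ℤ) (hN : a * d = N) (had : 0 < (a : ℝ) * (d : ℝ))
    (τ : ℍ) :
    Function.Periodic.qParam 1 (upperTriangularGL a b d had.ne' • τ : ℍ) =
      Complex.exp (2 * Real.pi * Complex.I * b / d) * Function.Periodic.qParam N τ ^ (a ^ 2) := by
  have ha : (a : ℂ) ≠ 0 := by
    intro h
    have : (a : ℝ) = 0 := by exact_mod_cast h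
    simp [this] at had
  have hd : (d : ℂ) ≠ 0 := by
    intro h
    have : (d : ℝ) = 0 := by exact_mod_cast h
    simp [this] at had
  have hNc : (N : ℂ) = a * d := by rw [← hN]; push_cast; ring
  rw [coe_upperTriangularGL_smul _ _ _ had]
  simp only [Function.Periodic.qParam]
  rw [← Complex.exp_nat_mul, ← Complex.exp_add]
  congr 1
  push_cast
  rw [hNc]
  field_simp
  ring

theorem hasSum_conj (N a d : ℕ) (b : ℤ) (hN : a * d = N) (had : 0 < (a : ℝ) * (d : ℝ)) (τ : ℍ) :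
    HasSum (fun m => ((a : ℂ) ^ 12 * (conjSeries a (Complex.exp (2 * Real.pi * Complex.I * b / d))).coeff m)
        • Function.Periodic.qParam N τ ^ m)
      ((N : ℂ) * (ModularForm.discriminant ∣[(12 : ℤ)] upperTriangularGL a b d had.ne') τ) := by
  have ha : (a : ℂ) ≠ 0 := by
    intro h
    have : (a : ℝ) = 0 := by exact_mod_cast h
    simp [this] at had
  have ha' : a ≠ 0 := by exact_mod_cast ha
  have hd : (d : ℂ) ≠ 0 := by
    intro h
    have : (d : ℝ) = 0 := by exact_mod_cast h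
    simp [this] at had
  have hNc : (N : ℂ) = a * d := by rw [← hN]; push_cast; ring
  set ζ := Complex.exp (2 * Real.pi * Complex.I * b / d) with hζ
  set X := Function.Periodic.qParam N τ with hX
  set w : ℍ := upperTriangularGL a b d had.ne' • τ with hw
  have h1 := ModularForm.hasSum_qExpansion CuspForm.discriminant one_pos one_mem_strictPeriods_SL w
  have h1' : HasSum (fun n => (deltaInt.coeff n : ℂ) * (ζ * X ^ (a ^ 2)) ^ n)
      (ModularForm.discriminant w) := by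
    have e : (CuspForm.discriminant : ℍ → ℂ) = ModularForm.discriminant := rfl
    rw [e, qExpansion_discriminant, qParam_upperTriangular N a d b hN had τ] at h1
    simpa using h1
  have hinj : Function.Injective (fun n : ℕ => a ^ 2 * n) := fun x y hxy =>
    Nat.eq_of_mul_eq_mul_left (by positivity) hxy
  have h2 : HasSum (fun m => (conjSeries a ζ).coeff m * X ^ m) (ModularForm.discriminant w) := by
    rw [← hinj.hasSum_iff]
    · convert h1' using 2 with n
      simp only [Function.comp_apply, conjSeries, PowerSeries.coeff_mk, dvd_mul_right, if_true]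
      rw [Nat.mul_div_cancel_left _ (by positivity), mul_pow, ← pow_mul]
      ring
    · intro m hm
      have : ¬ a ^ 2 ∣ m := fun ⟨n, hn⟩ => hm ⟨n, hn.symm⟩
      simp [conjSeries, this]
  have h3 : (N : ℂ) * (ModularForm.discriminant ∣[(12 : ℤ)] upperTriangularGL a b d had.ne') τ
      = (a : ℂ) ^ 12 * ModularForm.discriminant w := by
    rw [slash_upperTriangularGL_apply _ _ _ _ had]
    push_cast
    rw [hNc, show (-(12 : ℤ)) = -((12 : ℕ) : ℤ) by norm_num, zpow_neg, zpow_natCast, ← hw]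
    field_simp
  rw [h3]
  have h4 := h2.mul_left ((a : ℂ) ^ 12)
  have e : (fun m => ((a : ℂ) ^ 12 * (conjSeries a ζ).coeff m) • X ^ m)
      = fun i => (a : ℂ) ^ 12 * ((conjSeries a ζ).coeff i * X ^ i) := by
    funext m
    rw [smul_eq_mul, mul_assoc]
  rw [e]
  exact h4

end Fermat.Agent.Lib.S22Alt
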