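import Mathlib
import Fermat.Agent.Lib.S22Alt.Conj

set_option autoImplicit false

open UpperHalfPlane ModularForm SlashInvariantForm
open scoped MatrixGroups ModularForm Pointwise

namespace Fermat.Agent.Lib.S22Alt

variable (N : ℕ) [NeZero N]

/-- The form `N¹² Δ(Nz)` on `Γ₀(N)`. -/
noncomputable def hN : ModularForm (G0 N) 12 := (N : ℂ) • h0 N

/-- The coset space `SL₂(ℤ) / Γ₀(N)`. -/
abbrev Q : Type := 𝒮ℒ ⧸ ((G0 N).subgroupOf 𝒮ℒ)

noncomputable instance : Fintype (Q N) := Fintype.ofFinite _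

theorem exp_pow_eq_one (a d : ℕ) (b : ℤ) (hN : a * d = N) (hd : d ≠ 0) :
    Complex.exp (2 * Real.pi * Complex.I * b / d) ^ N = 1 := by
  have hd' : (d : ℂ) ≠ 0 := by exact_mod_cast hd
  rw [← Complex.exp_nat_mul, ← hN]
  have : ((a * d : ℕ) : ℂ) * (2 * Real.pi * Complex.I * b / d)
      = ((a * b : ℤ) : ℂ) * (2 * Real.pi * Complex.I) := by
    push_cast
    field_simp
  rw [this, Complex.exp_int_mul_two_pi_mul_I]

theorem conj_data (q : Q N) :
    ∃ (a : ℕ) (ζ : ℂ), 0 < a ∧ a ∣ N ∧ ζ ^ N = 1 ∧ (a = N ↔ q = ⟦1⟧) ∧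
      quotientFunc (hN N) q ∈ anSub N ∧
      qExpansion N (quotientFunc (hN N) q) = ((a : ℂ) ^ 12) • conjSeries a ζ := by
  induction q using Quotient.inductionOn with
  | h g =>
    obtain ⟨γ, hγ⟩ : ∃ γ : SL(2, ℤ), Matrix.SpecialLinearGroup.mapGL ℝ γ = g.val⁻¹ :=
      (inv_mem g.2)
    obtain ⟨a, d, b, had, hadN, hiff, hsl⟩ := h0_slash N γ
    have ha : 0 < a := by
      rcases Nat.eq_zero_or_pos a with h | h
      · simp [h] at had
      · exact h
    have hd : d ≠ 0 := by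
      rintro rfl
      simp at had
    have hfun : quotientFunc (hN N) (⟦g⟧ : Q N) = fun τ =>
        (N : ℂ) * (ModularForm.discriminant ∣[(12 : ℤ)] upperTriangularGL a b d had.ne') τ := by
      rw [quotientFunc_mk, ← hγ, ← hsl]
      have e : (hN N : ℍ → ℂ) = (N : ℂ) • (h0 N : ℍ → ℂ) := rfl
      rw [e, ModularForm.smul_slash]
      have hσ : UpperHalfPlane.σ (Matrix.SpecialLinearGroup.mapGL ℝ γ) = .refl ℝ ℂ := by
        rw [UpperHalfPlane.σ, if_pos (by simp)]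
      rw [hσ]
      rfl
    have hol : MDifferentiable (modelWithCornersSelf ℂ ℂ) (modelWithCornersSelf ℂ ℂ)
        (quotientFunc (hN N) (⟦g⟧ : Q N)) := by
      rw [quotientFunc_mk]
      exact (ModularForm.translate (hN N) g.val⁻¹).holo'
    have hs := hasSum_conj N a d b hadN had
    have key := mem_anSub_of_hasSum (h := (N : ℝ)) (by exact_mod_cast NeZero.pos N) hol
      (c := fun m => (a : ℂ) ^ 12 *
        (conjSeries a (Complex.exp (2 * Real.pi * Complex.I * b / d))).coeff m)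
      (by rw [hfun]; exact hs)
    refine ⟨a, _, ha, ⟨d, hadN.symm⟩, exp_pow_eq_one N a d b hadN hd, ?_, key.1, ?_⟩
    · rw [hiff]
      have h1 : ((⟦g⟧ : Q N) = ⟦1⟧) ↔ g.val⁻¹ ∈ G0 N := by
        have : ((⟦g⟧ : Q N) = ⟦1⟧) ↔ g⁻¹ * 1 ∈ (G0 N).subgroupOf 𝒮ℒ := QuotientGroup.eq
        rw [this, mul_one, Subgroup.mem_subgroupOf]
        rfl
      rw [h1, ← hγ]
      exact (Subgroup.mem_map_iff_mem Matrix.SpecialLinearGroup.mapGL_injective).symm
    · ext m
      rw [key.2 m, PowerSeries.coeff_smul, smul_eq_mul]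

end Fermat.Agent.Lib.S22Alt
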