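import Mathlib

set_option autoImplicit false

namespace Fermat.Agent.Lib.S22Alt

/-- The ring generated by the `N`-th roots of unity. -/
def ringO (N : ℕ) : Subalgebra ℤ ℂ := Algebra.adjoin ℤ {z : ℂ | z ^ N = 1}

theorem ringO_fg (N : ℕ) [NeZero N] : (Subalgebra.toSubmodule (ringO N)).FG := by
  apply fg_adjoin_of_finite
  · have h : {z : ℂ | z ^ N = 1} ⊆ ((Polynomial.nthRoots N (1 : ℂ)).toFinset : Set ℂ) := by
      intro z hz
      simp only [Finset.mem_coe, Multiset.mem_toFinset]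
      rw [Polynomial.mem_nthRoots (NeZero.pos N)]
      exact hz
    exact (Finset.finite_toSet _).subset h
  · intro z hz
    refine ⟨Polynomial.X ^ N - 1, Polynomial.monic_X_pow_sub_C (1 : ℤ) (NeZero.ne N), ?_⟩
    have hz' : z ^ N = 1 := hz
    simp [hz']

theorem root_mem_ringO {N : ℕ} {z : ℂ} (hz : z ^ N = 1) : z ∈ ringO N :=
  Algebra.subset_adjoin hz

theorem int_mem_ringO (N : ℕ) (n : ℤ) : (n : ℂ) ∈ ringO N := by
  have := (ringO N).algebraMap_mem n
  simpa using this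

/-- Power series all of whose coefficients lie in `ringO N`. -/
def intO (N : ℕ) : Subring (PowerSeries ℂ) where
  carrier := {φ | ∀ n, φ.coeff n ∈ ringO N}
  mul_mem' := by
    intro φ ψ hφ hψ n
    rw [PowerSeries.coeff_mul]
    exact Subalgebra.sum_mem _ fun p _ => (ringO N).mul_mem (hφ _) (hψ _)
  one_mem' := by
    intro n
    rw [PowerSeries.coeff_one]
    split_ifs
    · exact (ringO N).one_mem
    · exact (ringO N).zero_mem
  add_mem' := by
    intro φ ψ hφ hψ n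
    rw [map_add]
    exact (ringO N).add_mem (hφ _) (hψ _)
  zero_mem' := by
    intro n
    rw [map_zero]
    exact (ringO N).zero_mem
  neg_mem' := by
    intro φ hφ n
    rw [map_neg]
    exact (ringO N).neg_mem (hφ _)

theorem mem_intO {N : ℕ} {φ : PowerSeries ℂ} : φ ∈ intO N ↔ ∀ n, φ.coeff n ∈ ringO N := Iff.rfl

/-- inverse of an integral power series with unit constant coefficient -/
theorem exists_inv_intO {N : ℕ} {φ : PowerSeries ℂ} (hφ : φ ∈ intO N) {u : ℂ} (hu : u ∈ ringO N)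
    (hu1 : φ.coeff 0 * u = 1) : ∃ ψ ∈ intO N, φ * ψ = 1 := by
  let φ₀ : PowerSeries (ringO N) := PowerSeries.mk fun n => ⟨φ.coeff n, hφ n⟩
  have hmap : PowerSeries.map (algebraMap (ringO N) ℂ) φ₀ = φ := by
    ext n
    simp [φ₀]
  have hunit : IsUnit φ₀ := by
    rw [PowerSeries.isUnit_iff_constantCoeff]
    refine IsUnit.of_mul_eq_one ⟨u, hu⟩ ?_
    apply Subtype.ext
    rw [← PowerSeries.coeff_zero_eq_constantCoeff_apply]
    simpa [φ₀] using hu1
  obtain ⟨ψ₀, hψ₀⟩ := hunit.exists_right_inv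
  refine ⟨PowerSeries.map (algebraMap (ringO N) ℂ) ψ₀, fun n => ?_, ?_⟩
  · rw [PowerSeries.coeff_map]
    exact (ψ₀.coeff n).2
  · rw [← hmap, ← map_mul, hψ₀, map_one]

/-- Series of the form `C X^s W` with `C ≠ 0` and `W` a unit of the integral power series. -/
def Good (N : ℕ) (φ : PowerSeries ℂ) : Prop :=
  ∃ (C : ℂ) (s : ℕ) (W W' : PowerSeries ℂ), C ≠ 0 ∧ W ∈ intO N ∧ W' ∈ intO N ∧ W * W' = 1 ∧
    φ = C • (PowerSeries.X ^ s * W)

theorem good_one (N : ℕ) : Good N 1 :=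
  ⟨1, 0, 1, 1, one_ne_zero, (intO N).one_mem, (intO N).one_mem, by simp, by simp⟩

theorem Good.mul {N : ℕ} {φ ψ : PowerSeries ℂ} (hφ : Good N φ) (hψ : Good N ψ) :
    Good N (φ * ψ) := by
  obtain ⟨C, s, W, W', hC, hW, hW', hWW', rfl⟩ := hφ
  obtain ⟨D, t, V, V', hD, hV, hV', hVV', rfl⟩ := hψ
  refine ⟨C * D, s + t, W * V, W' * V', mul_ne_zero hC hD, (intO N).mul_mem hW hV,
    (intO N).mul_mem hW' hV', ?_, ?_⟩
  · calc W * V * (W' * V') = (W * W') * (V * V') := by ring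
      _ = 1 := by rw [hWW', hVV', one_mul]
  · rw [smul_mul_smul_comm, pow_add]
    congr 1
    ring

theorem good_prod {N : ℕ} {ι : Type*} (s : Finset ι) (φ : ι → PowerSeries ℂ)
    (h : ∀ i ∈ s, Good N (φ i)) : Good N (∏ i ∈ s, φ i) :=
  Finset.prod_induction φ (Good N) (fun _ _ => Good.mul) (good_one N) h

/-- A criterion for `Good`. -/
theorem good_of_coeff {N : ℕ} {ψ : PowerSeries ℂ} (hψ : ψ ∈ intO N) (s : ℕ)
    (hlow : ∀ m < s, ψ.coeff m = 0) {u : ℂ} (hu : u ∈ ringO N) (hu1 : ψ.coeff s * u = 1)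
    {C : ℂ} (hC : C ≠ 0) : Good N (C • ψ) := by
  obtain ⟨W, hW⟩ := PowerSeries.X_pow_dvd_iff.mpr hlow
  have hWc : ∀ n, W.coeff n = ψ.coeff (n + s) := by
    intro n
    rw [hW, PowerSeries.coeff_X_pow_mul]
  have hWmem : W ∈ intO N := fun n => by rw [hWc]; exact hψ _
  obtain ⟨W', hW', hWW'⟩ := exists_inv_intO hWmem hu (by rw [hWc, zero_add]; exact hu1)
  exact ⟨C, s, W, W', hC, hWmem, hW', hWW', by rw [hW]⟩

/-- The final extraction of coefficients. -/
theorem coeff_of_good {N : ℕ} {P : PowerSeries ℂ} (hP : Good N P) :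
    ∃ (C : ℂ) (s : ℕ) (W' : PowerSeries ℂ), W' ∈ intO N ∧
      ∀ (f R : PowerSeries ℂ), f * P = R → ∀ n, f.coeff n = C * (W' * R).coeff (n + s) := by
  obtain ⟨C, s, W, W', hC, _, hW', hWW', rfl⟩ := hP
  refine ⟨C⁻¹, s, W', hW', ?_⟩
  rintro f R rfl n
  have : W' * (f * C • (PowerSeries.X ^ s * W)) = C • (PowerSeries.X ^ s * f) := by
    rw [mul_smul_comm, mul_smul_comm]
    congr 1
    calc W' * (f * (PowerSeries.X ^ s * W)) = (PowerSeries.X ^ s * f) * (W * W') := by ring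
      _ = PowerSeries.X ^ s * f := by rw [hWW', mul_one]
  rw [this, PowerSeries.coeff_smul, PowerSeries.coeff_X_pow_mul, smul_eq_mul, ← mul_assoc,
    inv_mul_cancel₀ hC, one_mul]

end Fermat.Agent.Lib.S22Alt
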