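import Mathlib

set_option autoImplicit false

open Polynomial

namespace Fermat.Agent.Lib.S22Alt

theorem lagrange_identity {ι R : Type*} [Fintype ι] [DecidableEq ι] [CommRing R] (i0 : ι)
    (x y : ι → R) :
    y i0 * ∏ i ∈ Finset.univ.erase i0, (x i0 - x i) =
      ∑ m ∈ Finset.range (Fintype.card ι),
        (∏ i ∈ Finset.univ.erase i0, (X - C (x i))).coeff m * ∑ i, y i * x i ^ m := by
  classical
  nontriviality R
  set P : R[X] := ∏ i ∈ Finset.univ.erase i0, (X - C (x i)) with hP
  have hdeg : P.natDegree < Fintype.card ι := by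
    rw [hP, natDegree_prod_of_monic _ _ fun i _ => monic_X_sub_C (x i)]
    simp only [natDegree_X_sub_C, Finset.sum_const, smul_eq_mul, mul_one]
    rw [Finset.card_erase_of_mem (Finset.mem_univ i0), Finset.card_univ]
    exact Nat.sub_lt (Fintype.card_pos_iff.mpr ⟨i0⟩) one_pos
  have heval : ∀ t : R, P.eval t = ∏ i ∈ Finset.univ.erase i0, (t - x i) := by
    intro t
    rw [hP, eval_prod]
    simp
  have hzero : ∀ j, j ≠ i0 → P.eval (x j) = 0 := by
    intro j hj
    rw [heval]
    exact Finset.prod_eq_zero (Finset.mem_erase.mpr ⟨hj, Finset.mem_univ j⟩) (sub_self _)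
  have h1 : ∑ j, y j * P.eval (x j) = y i0 * P.eval (x i0) := by
    refine Finset.sum_eq_single i0 (fun j _ hj => ?_) (fun h => absurd (Finset.mem_univ i0) h)
    rw [hzero j hj, mul_zero]
  rw [← heval, ← h1]
  simp_rw [eval_eq_sum_range' hdeg, Finset.mul_sum]
  rw [Finset.sum_comm]
  refine Finset.sum_congr rfl fun m _ => Finset.sum_congr rfl fun j _ => ?_
  ring

theorem map_coeff_prod_X_sub_C {ι R S : Type*} [CommRing R] [CommRing S] (φ : R →+* S)
    (s : Finset ι) (x : ι → R) (m : ℕ) :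
    φ ((∏ i ∈ s, (X - C (x i))).coeff m) = (∏ i ∈ s, (X - C (φ (x i)))).coeff m := by
  rw [← coeff_map, Polynomial.map_prod]
  simp

end Fermat.Agent.Lib.S22Alt
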