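import Mathlib
import Fermat.Agent.Lib.S22Alt.DeltaInt

set_option autoImplicit false

open UpperHalfPlane ModularForm EisensteinSeries
open scoped MatrixGroups

namespace Fermat.Agent.Lib.S22Alt

/-- complexification of an integral power series -/
noncomputable abbrev toC : PowerSeries ℤ →+* PowerSeries ℂ := PowerSeries.map (Int.castRingHom ℂ)

/-- The `q`-expansions of level one forms of weight `w` lie in the `ℂ`-span of finitely many
integral power series. -/
def LevelOneSpan (w : ℤ) : Prop :=
  ∃ s : Finset (PowerSeries ℤ), ∀ F : ModularForm 𝒮ℒ w,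
    qExpansion 1 F ∈ Submodule.span ℂ (toC '' (s : Set (PowerSeries ℤ)))

theorem levelOneSpan_of_forall_eq_zero {w : ℤ} (h : ∀ F : ModularForm 𝒮ℒ w, F = 0) :
    LevelOneSpan w := by
  refine ⟨∅, fun F => ?_⟩
  rw [h F]
  have : ((0 : ModularForm 𝒮ℒ w) : ℍ → ℂ) = 0 := rfl
  rw [this, qExpansion_zero]
  exact Submodule.zero_mem _

theorem levelOneSpan_zero : LevelOneSpan 0 := by
  refine ⟨{1}, fun F => ?_⟩
  obtain ⟨c, hc⟩ := ModularFormClass.levelOne_weight_zero_const F
  have h1 : (F : ℍ → ℂ) = c • (1 : ℍ → ℂ) := by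
    rw [hc]; funext τ; simp
  have h1' : AnalyticAt ℂ (cuspFunction 1 (1 : ℍ → ℂ)) 0 := (1 : anSub 1).2
  rw [h1, qExpansion_smul h1', qExpansion_one]
  refine Submodule.smul_mem _ _ (Submodule.subset_span ⟨1, by simp, by simp⟩)

theorem levelOneSpan_step (n : ℕ) (hn : 3 ≤ n) (hn2 : Even n) (h : LevelOneSpan ((n : ℤ) - 12)) :
    LevelOneSpan (n : ℤ) := by
  classical
  obtain ⟨s', hs'⟩ := h
  refine ⟨{1, sigmaSeries (n - 1)} ∪ s'.image (deltaInt * ·), fun F => ?_⟩
  set W := Submodule.span ℂ (toC '' ((({1, sigmaSeries (n - 1)} ∪ s'.image (deltaInt * ·) :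
    Finset (PowerSeries ℤ))) : Set (PowerSeries ℤ))) with hW
  set a0 : ℂ := (qExpansion 1 F).coeff 0 with ha0
  let G : ModularForm 𝒮ℒ (n : ℤ) := F - a0 • E hn
  have hGq : qExpansion 1 G = qExpansion 1 F - a0 • qExpansion 1 (E hn) := by
    have h1 : (G : ℍ → ℂ) = (F : ℍ → ℂ) - (a0 • E hn : ModularForm 𝒮ℒ (n : ℤ)) := rfl
    rw [h1, ModularForm.qExpansion_sub one_pos one_mem_strictPeriods_SL]
    have h2 : ((a0 • E hn : ModularForm 𝒮ℒ (n : ℤ)) : ℍ → ℂ) = a0 • (E hn : ℍ → ℂ) := rfl
    rw [h2, ModularForm.qExpansion_smul one_pos one_mem_strictPeriods_SL]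
  have hcusp : (qExpansion 1 G).coeff 0 = 0 := by
    rw [hGq, map_sub, PowerSeries.coeff_smul, E_qExpansion_coeff_zero hn hn2]
    simp [ha0]
  have hG := qExpansion_eq_qExpansion_discriminant_mul G hcusp
  have hF : qExpansion 1 F = a0 • qExpansion 1 (E hn) + qExpansion 1 G := by
    rw [hGq]; ring
  rw [hF]
  refine W.add_mem (W.smul_mem _ ?_) ?_
  · rw [qExpansion_E n hn hn2]
    refine W.add_mem ?_ (W.smul_mem _ ?_)
    · exact Submodule.subset_span ⟨1, by simp, by simp⟩
    · exact Submodule.subset_span ⟨sigmaSeries (n - 1), by simp, rfl⟩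
  · rw [hG, qExpansion_discriminant]
    have h3 := hs' (CuspForm.discriminantEquiv (G.toCuspForm hcusp))
    have h4 : Submodule.map (LinearMap.mulLeft ℂ (toC deltaInt))
        (Submodule.span ℂ (toC '' (s' : Set (PowerSeries ℤ)))) ≤ W := by
      rw [Submodule.map_span_le]
      rintro _ ⟨B, hB, rfl⟩
      refine Submodule.subset_span ⟨deltaInt * B, ?_, by simp⟩
      simp only [Finset.coe_union, Finset.coe_image, Set.mem_union, Set.mem_image]
      exact Or.inr ⟨B, hB, rfl⟩
    exact h4 ⟨_, h3, rfl⟩

theorem levelOneSpan (w : ℤ) : LevelOneSpan w := by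
  have key : ∀ n : ℕ, ∀ w : ℤ, w < n → LevelOneSpan w := by
    intro n
    induction n with
    | zero =>
      intro w hw
      refine levelOneSpan_of_forall_eq_zero fun F => ?_
      ext τ
      have := ModularFormClass.levelOne_neg_weight_eq_zero (by simpa using hw) F
      simp [this]
    | succ n ih =>
      intro w hw
      by_cases hwn : w < n
      · exact ih w hwn
      have hwn' : w = n := by push_cast at hw; omega
      subst hwn'
      rcases Nat.even_or_odd n with he | ho
      · by_cases h0 : n = 0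
        · subst h0; exact levelOneSpan_zero
        by_cases h2 : n = 2
        · subst h2
          refine levelOneSpan_of_forall_eq_zero fun F => ?_
          have := levelOne_weight_two_rank_zero
          rw [rank_zero_iff_forall_zero] at this
          exact this F
        · have h3 : 3 ≤ n := by
            rcases he with ⟨m, hm⟩
            omega
          exact levelOneSpan_step n h3 he (ih _ (by omega))
      · refine levelOneSpan_of_forall_eq_zero fun F => ?_
        exact ModularForm.levelOne_odd_weight_eq_zero (by exact_mod_cast ho) F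
  exact key (w.toNat + 1) w (by push_cast; omega)

end Fermat.Agent.Lib.S22Alt
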