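import Mathlib
import Fermat.Prelude.Thm_UpperHalfPlane_qExpansion_coeff_nat_mul
import Fermat.Agent.Lib.S22Alt.Conj2

set_option autoImplicit false

open UpperHalfPlane ModularForm SlashInvariantForm
open scoped MatrixGroups ModularForm Pointwise

namespace Fermat.Agent.Lib.S22Alt

variable (N : ℕ) [NeZero N]

/-- passing from the period `1` to the period `N`. -/
theorem expand_of_period_one {F : ℍ → ℂ} (hper : Function.Periodic (F ∘ ofComplex) 1)
    (hhol : MDifferentiable (modelWithCornersSelf ℂ ℂ) (modelWithCornersSelf ℂ ℂ) F)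
    (hbdd : IsBoundedAtImInfty F) :
    F ∈ anSub N ∧ qExpansion N F = PowerSeries.expand N (NeZero.ne N) (qExpansion 1 F) := by
  have hN : (0 : ℝ) < N := by exact_mod_cast NeZero.pos N
  constructor
  · have hper' : Function.Periodic (F ∘ ofComplex) (N : ℝ) := by
      have := hper.nat_mul N
      simpa using this
    exact analyticAt_cuspFunction_zero hN hper' hhol hbdd
  · ext n
    have := UpperHalfPlane.qExpansion_coeff_nat_mul one_pos hper hhol hbdd (NeZero.pos N) n
    rw [mul_one] at this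
    rw [this, PowerSeries.coeff_expand]

theorem expand_modularForm {Γ : Subgroup (GL (Fin 2) ℝ)} {w : ℤ} {F : Type*} [FunLike F ℍ ℂ]
    [ModularFormClass F Γ w] (hΓ : (1 : ℝ) ∈ Γ.strictPeriods) (f : F) :
    (f : ℍ → ℂ) ∈ anSub N ∧
      qExpansion N f = PowerSeries.expand N (NeZero.ne N) (qExpansion 1 f) := by
  have : Fact (IsCusp OnePoint.infty Γ) := ⟨Γ.isCusp_of_mem_strictPeriods one_pos hΓ⟩
  exact expand_of_period_one N (SlashInvariantFormClass.periodic_comp_ofComplex f hΓ)
    (ModularFormClass.holo f) (ModularFormClass.bdd_at_infty f)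

theorem pow_slash_of_det_one (A : GL (Fin 2) ℝ) (hA : (A.det : ℝ) = 1) (w : ℤ) (h : ℍ → ℂ) (m : ℕ) :
    (h ^ m) ∣[(m : ℤ) * w] A = (h ∣[w] A) ^ m := by
  have := ModularForm.prod_slash (k := w) (g := A) (f := fun _ : ℕ => h) (s := Finset.range m)
  simp only [Finset.prod_const, Finset.card_range, hA, abs_one, one_zpow, one_smul] at this
  rw [mul_comm]
  exact this

variable {N} {k : ℤ}

/-- The form `f h^m`. -/
noncomputable def fh (f : CuspForm (G0 N) k) (m : ℕ) : ModularForm (G0 N) (k + (m : ℤ) * 12) :=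
  (CuspForm.toModularFormₗ f).mul ((hN N).pow m)

theorem quotientFunc_fh (f : CuspForm (G0 N) k) (m : ℕ) (q : Q N) :
    quotientFunc (fh f m) q = quotientFunc f q * (quotientFunc (hN N) q) ^ m := by
  induction q using Quotient.inductionOn with
  | h g =>
    obtain ⟨γ, hγ⟩ : ∃ γ : SL(2, ℤ), Matrix.SpecialLinearGroup.mapGL ℝ γ = g.val⁻¹ :=
      (inv_mem g.2)
    have hdet : ((g.val⁻¹).det : ℝ) = 1 := by rw [← hγ]; simp
    rw [quotientFunc_mk, quotientFunc_mk, quotientFunc_mk]
    have e : (fh f m : ℍ → ℂ) = (f : ℍ → ℂ) * (hN N : ℍ → ℂ) ^ m := by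
      rw [fh, ModularForm.coe_mul, ModularForm.coe_pow]
      rfl
    rw [e, ModularForm.mul_slash, hdet, abs_one, one_smul, pow_slash_of_det_one _ hdet]

/-- The trace of `f h^m` to level one. -/
noncomputable def trFH (f : CuspForm (G0 N) k) (m : ℕ) : ModularForm 𝒮ℒ (k + (m : ℤ) * 12) :=
  ModularForm.trace 𝒮ℒ (fh f m)

theorem coe_trFH (f : CuspForm (G0 N) k) (m : ℕ) :
    (trFH f m : ℍ → ℂ) = ∑ q : Q N, quotientFunc f q * (quotientFunc (hN N) q) ^ m := by
  rw [trFH, ModularForm.coe_trace]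
  refine Finset.sum_congr ?_ fun q _ => quotientFunc_fh f m q
  ext; simp

end Fermat.Agent.Lib.S22Alt
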