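import Mathlib
import Fermat.Agent.Lib.S22Alt.Trace
import Fermat.Agent.Lib.S22Alt.Lagrange
import Fermat.Agent.Lib.S22Alt.IntO
import Fermat.Agent.Lib.S22Alt.LevelOne
import Fermat.Prelude.Thm_CongruenceSubgroup_one_mem_strictPeriods_Gamma0

set_option autoImplicit false

open UpperHalfPlane ModularForm SlashInvariantForm
open scoped MatrixGroups ModularForm Pointwise

namespace Fermat.Agent.Lib.S22Alt

section conjSeries

variable {N : ℕ}

theorem conjSeries_mem_intO (a : ℕ) {ζ : ℂ} (hζ : ζ ^ N = 1) : conjSeries a ζ ∈ intO N := by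
  intro m
  simp only [conjSeries, PowerSeries.coeff_mk]
  split_ifs
  · exact (ringO N).mul_mem (int_mem_ringO N _) ((ringO N).pow_mem (root_mem_ringO hζ) _)
  · exact (ringO N).zero_mem

theorem conjSeries_coeff_of_lt {a : ℕ} (ζ : ℂ) {m : ℕ} (hm : m < a ^ 2) :
    (conjSeries a ζ).coeff m = 0 := by
  simp only [conjSeries, PowerSeries.coeff_mk]
  split_ifs with h
  · have hm0 : m = 0 := Nat.eq_zero_of_dvd_of_lt h hm
    subst hm0
    simp [coeff_zero_deltaInt, -PowerSeries.coeff_zero_eq_constantCoeff]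
  · rfl

theorem conjSeries_coeff_sq {a : ℕ} (ha : 0 < a) (ζ : ℂ) :
    (conjSeries a ζ).coeff (a ^ 2) = ζ := by
  simp only [conjSeries, PowerSeries.coeff_mk, dvd_refl, if_true]
  rw [Nat.div_self (by positivity), coeff_one_deltaInt]
  simp

theorem good_sub {a : ℕ} (ha : 0 < a) (haN : a ∣ N) (halt : a < N) {ζ ζ0 : ℂ} (hζ : ζ ^ N = 1)
    (hζ0 : ζ0 ^ N = 1) :
    Good N (((N : ℂ) ^ 12) • conjSeries N ζ0 - ((a : ℂ) ^ 12) • conjSeries a ζ) := by
  obtain ⟨d, rfl⟩ := haN
  have hac : (a : ℂ) ≠ 0 := by exact_mod_cast ha.ne'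
  have hsq : a ^ 2 < (a * d) ^ 2 := Nat.pow_lt_pow_left halt (by norm_num)
  have hNpos : 0 < a * d := lt_of_le_of_lt (Nat.zero_le _) halt
  have e : (((a * d : ℕ) : ℂ) ^ 12) • conjSeries (a * d) ζ0 - ((a : ℂ) ^ 12) • conjSeries a ζ
      = ((a : ℂ) ^ 12) • ((((d ^ 12 : ℕ) : ℤ) : ℂ) • conjSeries (a * d) ζ0 - conjSeries a ζ) := by
    rw [smul_sub, smul_smul]
    push_cast
    rw [mul_pow]
  rw [e]
  refine good_of_coeff (u := -ζ ^ (a * d - 1)) ?_ (a ^ 2) ?_ ?_ ?_ (pow_ne_zero _ hac)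
  · refine (intO _).sub_mem ?_ (conjSeries_mem_intO a hζ)
    intro n
    rw [PowerSeries.coeff_smul, smul_eq_mul]
    exact (ringO _).mul_mem (int_mem_ringO _ _) (conjSeries_mem_intO (a * d) hζ0 n)
  · intro m hm
    rw [map_sub, PowerSeries.coeff_smul, conjSeries_coeff_of_lt ζ0 (hm.trans hsq),
      conjSeries_coeff_of_lt ζ hm]
    simp
  · exact (ringO _).neg_mem ((ringO _).pow_mem (root_mem_ringO hζ) _)
  · rw [map_sub, PowerSeries.coeff_smul, conjSeries_coeff_of_lt ζ0 hsq, conjSeries_coeff_sq ha]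
    have : ζ * ζ ^ (a * d - 1) = 1 := by
      rw [← pow_succ', Nat.sub_add_cancel hNpos, hζ]
    simp [this]

end conjSeries

section main

/-- the trivial coset -/
def q0 (N : ℕ) : Q N := ⟦1⟧

open Polynomial in
theorem identity (N : ℕ) [NeZero N] {k : ℤ} [DecidableEq (Q N)] (f : CuspForm (G0 N) k) :
    qExpansion N f * ∏ q ∈ Finset.univ.erase (q0 N),
        (qExpansion N (quotientFunc (hN N) (q0 N)) - qExpansion N (quotientFunc (hN N) q)) =
      ∑ m ∈ Finset.range (Fintype.card (Q N)),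
        (∏ q ∈ Finset.univ.erase (q0 N),
          (X - C (qExpansion N (quotientFunc (hN N) q)))).coeff m * qExpansion N (trFH f m) := by
  let xA : Q N → anSub (N : ℝ) := fun q =>
    ⟨quotientFunc (hN N) q, (conj_data N q).choose_spec.choose_spec.2.2.2.2.1⟩
  let fA : anSub (N : ℝ) :=
    ⟨f, (expand_modularForm N (CongruenceSubgroup.one_mem_strictPeriods_Gamma0 N) f).1⟩
  let tA : ℕ → anSub (N : ℝ) := fun m =>
    ⟨trFH f m, (expand_modularForm N one_mem_strictPeriods_SL (trFH f m)).1⟩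
  have hA : fA * ∏ q ∈ Finset.univ.erase (q0 N), (xA (q0 N) - xA q) =
      ∑ m ∈ Finset.range (Fintype.card (Q N)),
        (∏ q ∈ Finset.univ.erase (q0 N), (X - C (xA q))).coeff m * tA m := by
    have hv : Function.Injective (anSub (N : ℝ)).val := Subtype.val_injective
    apply hv
    have hL := lagrange_identity (q0 N) (fun q => quotientFunc (hN N) q)
      (fun q => quotientFunc f q)
    have hf1 : quotientFunc f (q0 N) = f := by
      rw [q0, quotientFunc_mk]
      simp
    rw [hf1] at hL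
    rw [map_mul, map_prod, map_sum]
    simp_rw [map_sub, map_mul]
    have hc : ∀ m, (anSub (N : ℝ)).val
        ((∏ q ∈ Finset.univ.erase (q0 N), (X - C (xA q))).coeff m) =
        (∏ q ∈ Finset.univ.erase (q0 N), (X - C (quotientFunc (hN N) q))).coeff m :=
      fun m => map_coeff_prod_X_sub_C ((anSub (N : ℝ)).val : anSub (N : ℝ) →+* (ℍ → ℂ)) _ xA m
    simp_rw [hc]
    have ht : ∀ m, (anSub (N : ℝ)).val (tA m) =
        ∑ q : Q N, quotientFunc f q * (quotientFunc (hN N) q) ^ m := fun m => coe_trFH f m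
    simp_rw [ht]
    exact hL
  have hB := congrArg (qHom (N : ℝ)) hA
  rw [map_mul, map_prod, map_sum] at hB
  simp_rw [map_sub, map_mul] at hB
  have hc : ∀ m, qHom (N : ℝ)
      ((∏ q ∈ Finset.univ.erase (q0 N), (X - C (xA q))).coeff m) =
      (∏ q ∈ Finset.univ.erase (q0 N),
        (X - C (qExpansion N (quotientFunc (hN N) q)))).coeff m :=
    fun m => map_coeff_prod_X_sub_C ((qHom (N : ℝ)) : anSub (N : ℝ) →+* PowerSeries ℂ) _ xA m
  simp_rw [hc] at hB
  exact hB

theorem xhat_mem_intO (N : ℕ) [NeZero N] (q : Q N) :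
    qExpansion N (quotientFunc (hN N) q) ∈ intO N := by
  obtain ⟨a, ζ, _, _, hζ, _, _, hx⟩ := conj_data N q
  rw [hx]
  intro n
  rw [PowerSeries.coeff_smul, smul_eq_mul]
  refine (ringO N).mul_mem ?_ (conjSeries_mem_intO a hζ n)
  have := int_mem_ringO N ((a : ℤ) ^ 12)
  simpa using this

theorem good_P (N : ℕ) [NeZero N] [DecidableEq (Q N)] :
    Good N (∏ q ∈ Finset.univ.erase (q0 N),
      (qExpansion N (quotientFunc (hN N) (q0 N)) - qExpansion N (quotientFunc (hN N) q))) := by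
  refine good_prod _ _ fun q hq => ?_
  obtain ⟨a0, ζ0, _, _, hζ0, hiff0, _, hx0⟩ := conj_data N (q0 N)
  obtain ⟨a, ζ, ha, haN, hζ, hiff, _, hx⟩ := conj_data N q
  have ha0 : a0 = N := hiff0.mpr rfl
  subst ha0
  have hne : a ≠ a0 := fun h => (Finset.mem_erase.mp hq).1 (hiff.mp h)
  have hlt : a < a0 := lt_of_le_of_ne (Nat.le_of_dvd (NeZero.pos a0) haN) hne
  rw [hx0, hx]
  exact good_sub ha haN hlt hζ hζ0

theorem expand_toC_mem_intO (N : ℕ) [NeZero N] (B : PowerSeries ℤ) :
    PowerSeries.expand N (NeZero.ne N) (toC B) ∈ intO N := by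
  intro n
  rw [PowerSeries.coeff_expand]
  split_ifs
  · rw [PowerSeries.coeff_map]
    exact int_mem_ringO N _
  · exact (ringO N).zero_mem

open Polynomial in
theorem key (N : ℕ) [NeZero N] (k : ℤ) :
    ∃ (G : Finset (PowerSeries ℂ)) (C₀ : ℂ) (s : ℕ), (∀ g ∈ G, g ∈ intO N) ∧
      ∀ f : CuspForm (G0 N) k, ∃ R ∈ Submodule.span ℂ (G : Set (PowerSeries ℂ)),
        ∀ n, (qExpansion 1 f).coeff n = C₀ * R.coeff (N * n + s) := by
  classical
  obtain ⟨C₀, s, W', hW', hcoef⟩ := coeff_of_good (good_P N)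
  set c : ℕ → PowerSeries ℂ := fun m => (∏ q ∈ Finset.univ.erase (q0 N),
    (X - C (qExpansion N (quotientFunc (hN N) q)))).coeff m with hc
  have hcmem : ∀ m, c m ∈ intO N := by
    intro m
    have := map_coeff_prod_X_sub_C (intO N).subtype (Finset.univ.erase (q0 N))
      (fun q => (⟨qExpansion N (quotientFunc (hN N) q), xhat_mem_intO N q⟩ : intO N)) m
    simp only [Subring.subtype_apply] at this
    rw [hc]
    simp only
    rw [← this]
    exact Subtype.property _
  choose S hS using fun m : ℕ => levelOneSpan (k + (m : ℤ) * 12)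
  let L : ℕ → PowerSeries ℂ →ₗ[ℂ] PowerSeries ℂ := fun m =>
    (LinearMap.mulLeft ℂ W') ∘ₗ (LinearMap.mulLeft ℂ (c m)) ∘ₗ
      (PowerSeries.expand N (NeZero.ne N)).toLinearMap
  let G : Finset (PowerSeries ℂ) := (Finset.range (Fintype.card (Q N))).biUnion fun m =>
    (S m).image fun B => L m (toC B)
  refine ⟨G, C₀, s, ?_, ?_⟩
  · intro g hg
    simp only [G, Finset.mem_biUnion, Finset.mem_image] at hg
    obtain ⟨m, _, B, _, rfl⟩ := hg
    exact (intO N).mul_mem hW' ((intO N).mul_mem (hcmem m) (expand_toC_mem_intO N B))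
  · intro f
    have hid := identity N f
    refine ⟨W' * ∑ m ∈ Finset.range (Fintype.card (Q N)), c m * qExpansion N (trFH f m), ?_, ?_⟩
    · rw [Finset.mul_sum]
      refine Submodule.sum_mem _ fun m hm => ?_
      have h1 : qExpansion N (trFH f m) =
          PowerSeries.expand N (NeZero.ne N) (qExpansion 1 (trFH f m)) :=
        (expand_modularForm N one_mem_strictPeriods_SL (trFH f m)).2
      have h2 : W' * (c m * qExpansion N (trFH f m)) = L m (qExpansion 1 (trFH f m)) := by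
        rw [h1]; rfl
      rw [h2]
      have h3 : Submodule.map (L m) (Submodule.span ℂ (toC '' (S m : Set (PowerSeries ℤ)))) ≤
          Submodule.span ℂ (G : Set (PowerSeries ℂ)) := by
        rw [Submodule.map_span_le]
        rintro _ ⟨B, hB, rfl⟩
        refine Submodule.subset_span ?_
        simp only [G, Finset.coe_biUnion, Finset.coe_image, Set.mem_iUnion, Set.mem_image]
        exact ⟨m, hm, B, hB, rfl⟩
      exact h3 ⟨_, hS m (trFH f m), rfl⟩
    · intro n
      have h1 : qExpansion N f = PowerSeries.expand N (NeZero.ne N) (qExpansion 1 f) :=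
        (expand_modularForm N (CongruenceSubgroup.one_mem_strictPeriods_Gamma0 N) f).2
      have h2 : (qExpansion 1 f).coeff n = (qExpansion N f).coeff (N * n) := by
        rw [h1, PowerSeries.coeff_expand, if_pos (dvd_mul_right N n),
          Nat.mul_div_cancel_left _ (NeZero.pos N)]
      rw [h2]
      exact hcoef _ _ hid (N * n)

end main

end Fermat.Agent.Lib.S22Alt
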