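import Fermat.Statements.S22
import Fermat.Prelude.Thm_ModularFormClass_qCoeff_heckeT
import Fermat.Prelude.Thm_ModularFormClass_qCoeff_heckeU
import Fermat.Prelude.Thm_ModularForm_sturm_bound_Gamma0
import Fermat.Agent.Lib.S22Alt.Algebra
import Fermat.Agent.Lib.S22Alt.Main

set_option autoImplicit false
open CuspForm

namespace Fermat.Agent.Lib.S22Alt

open UpperHalfPlane ModularFormClass

theorem one_mem_G0 (N : ℕ) : (1 : ℝ) ∈ (G0 N).strictPeriods :=
  CongruenceSubgroup.one_mem_strictPeriods_Gamma0 N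

/-- the coefficient functionals -/
noncomputable def coeffFun (N : ℕ) (k : ℤ) (n : ℕ) : Module.Dual ℂ (CuspForm (G0 N) k) where
  toFun f := qCoeff f n
  map_add' f g := by
    simp only [qCoeff]
    rw [CuspForm.coe_add, ModularForm.qExpansion_add one_pos (one_mem_G0 N) f g, map_add]
  map_smul' c f := by
    simp only [qCoeff]
    rw [CuspForm.IsGLPos.coe_smul, ModularForm.qExpansion_smul one_pos (one_mem_G0 N) c f,
      PowerSeries.coeff_smul]
    rfl

theorem coeffFun_apply (N : ℕ) (k : ℤ) (n : ℕ) (f : CuspForm (G0 N) k) :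
    coeffFun N k n f = qCoeff f n := rfl

theorem coeffFun_sep (N : ℕ) (k : ℤ) (f : CuspForm (G0 N) k)
    (h : ∀ n, coeffFun N k n f = 0) : f = 0 := by
  have h0 : qExpansion 1 (CuspForm.toModularFormₗ f) = 0 := by
    ext n
    exact h n
  have h1 := (ModularForm.qExpansion_eq_zero_iff one_pos (one_mem_G0 N)
    (CuspForm.toModularFormₗ f)).mp h0
  exact CuspForm.toModularFormₗ_injective (by rw [h1, _root_.map_zero])

theorem coeffFun_fg (N : ℕ) [NeZero N] (k : ℤ) :
    (Submodule.span ℤ (Set.range (coeffFun N k))).FG := by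
  classical
  obtain ⟨G, C₀, s, hG, hf⟩ := key N k
  choose R hR hRc using hf
  have hR' : ∀ f, ∃ φ : G → ℂ, ∑ a, φ a • (a : PowerSeries ℂ) = R f := fun f =>
    Submodule.mem_span_finset'.mp (hR f)
  choose φ hφ using hR'
  refine span_functionals_fg (J := G) (coeffFun N k) (fun g f => C₀ * φ f g)
    (Subalgebra.toSubmodule (ringO N)) (ringO_fg N) fun n => ?_
  refine ⟨fun g => (g : PowerSeries ℂ).coeff (N * n + s), fun g => hG g g.2 _, fun f => ?_⟩
  rw [coeffFun_apply, qCoeff, hRc f n, ← hφ f, finsum_eq_sum_of_fintype, map_sum, Finset.mul_sum]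
  refine Finset.sum_congr rfl fun g _ => ?_
  rw [PowerSeries.coeff_smul, smul_eq_mul]
  ring

theorem coeffFun_stab (N : ℕ) [NeZero N] (k : ℤ) (hk : 1 ≤ k) (S : Set ℕ)
    (t : Module.End ℂ (CuspForm (G0 N) k)) (ht : t ∈ heckeGenerators N k S) (n : ℕ) :
    (coeffFun N k n) ∘ₗ t ∈ Submodule.span ℤ (Set.range (coeffFun N k)) := by
  set M := Submodule.span ℤ (Set.range (coeffFun N k)) with hM
  have hmem : ∀ j, coeffFun N k j ∈ M := fun j => Submodule.subset_span ⟨j, rfl⟩
  rcases ht with ⟨ℓ, hℓ, hℓN, -, rfl⟩ | ⟨q, hqN, hq, -, rfl⟩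
  · obtain ⟨j, hj⟩ : ∃ j : ℕ, k - 1 = j := ⟨(k - 1).toNat, by omega⟩
    by_cases hdvd : ℓ ∣ n
    · have : (coeffFun N k n) ∘ₗ heckeTLin k hℓ hℓN =
          coeffFun N k (n * ℓ) + ((ℓ : ℤ) ^ j) • coeffFun N k (n / ℓ) := by
        ext f
        simp only [LinearMap.comp_apply, LinearMap.add_apply, LinearMap.smul_apply, coeffFun_apply]
        rw [coe_heckeTLin_apply, ModularFormClass.qCoeff_heckeT f (one_mem_G0 N) hℓ.ne_zero n,
          ModularForm.coeffHeckeT_of_dvd k hdvd, hj, zpow_natCast]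
        simp
      rw [this]
      exact M.add_mem (hmem _) (M.smul_mem _ (hmem _))
    · have : (coeffFun N k n) ∘ₗ heckeTLin k hℓ hℓN = coeffFun N k (n * ℓ) := by
        ext f
        simp only [LinearMap.comp_apply, coeffFun_apply]
        rw [coe_heckeTLin_apply, ModularFormClass.qCoeff_heckeT f (one_mem_G0 N) hℓ.ne_zero n,
          ModularForm.coeffHeckeT_of_not_dvd k hdvd]
      rw [this]
      exact hmem _
  · have : (coeffFun N k n) ∘ₗ heckeULin k hqN = coeffFun N k (n * q) := by
      ext f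
      simp only [LinearMap.comp_apply, coeffFun_apply]
      rw [coe_heckeULin_apply, ModularFormClass.qCoeff_heckeU f (one_mem_G0 N) hq.ne_zero n,
        ModularForm.coeffHeckeU_apply]
    rw [this]
    exact hmem _

theorem cuspForm_eq_zero_of_nonpos (N : ℕ) [NeZero N] (k : ℤ) (hk : k ≤ 0)
    (f : CuspForm (G0 N) k) : f = 0 := by
  have key : CuspForm.toModularFormₗ f = 0 := by
    refine ModularForm.sturm_bound_Gamma0 N _ ?_
    intro n hn
    have h2 : (k * (((CongruenceSubgroup.Gamma0 N).index : ℕ) : ℤ)).toNat = 0 := by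
      rw [Int.toNat_eq_zero]
      exact mul_nonpos_of_nonpos_of_nonneg hk (by positivity)
    rw [h2] at hn
    have hn0 : n = 0 := by omega
    subst hn0
    exact CuspFormClass.qExpansion_coeff_zero f one_pos (one_mem_G0 N)
  exact CuspForm.toModularFormₗ_injective (by rw [key, _root_.map_zero])

theorem result (N : ℕ) [NeZero N] (k : ℤ) (S : Set ℕ) :
    Module.Finite ℤ (CuspForm.heckeAlgebra N k S) := by
  by_cases hk : 1 ≤ k
  · exact finite_of_functionals (heckeGenerators N k S) (coeffFun N k) (coeffFun_sep N k)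
      (fun t ht n => coeffFun_stab N k hk S t ht n) (coeffFun_fg N k)
  · have hsub : Subsingleton (CuspForm (G0 N) k) :=
      ⟨fun f g => by
        rw [cuspForm_eq_zero_of_nonpos N k (by omega) f,
          cuspForm_eq_zero_of_nonpos N k (by omega) g]⟩
    have hsub2 : Subsingleton (Module.End ℂ (CuspForm (G0 N) k)) :=
      ⟨fun a b => LinearMap.ext fun x => Subsingleton.elim _ _⟩
    have hsub3 : Subsingleton (CuspForm.heckeAlgebra N k S) :=
      ⟨fun a b => Subtype.ext (Subsingleton.elim _ _)⟩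
    infer_instance

end Fermat.Agent.Lib.S22Alt
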